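import Fermat.Agent.Lifting.Assembly.EndPoint

/-!
# Modularity lifting at `3` and `5`
-/

set_option autoImplicit false

namespace Fermat.Agent.Lifting

/-- **Modularity lifting in the case of the route**, without hypotheses. -/
theorem liftingSquarefreeInput : Top.LiftingSquarefreeInput :=
  Assembly.liftingSquarefreeInput_of Assembly.endInput

end Fermat.Agent.Lifting
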